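import Fermat.Agent.MUL.Orig.Lib.Kronecker.Congruence
import Fermat.Agent.MUL.Orig.Lib.GaussInt.Basic
import Fermat.Agent.MUL.Orig.S05.H5.FreyFacts

set_option autoImplicit false
set_option linter.style.haveILetI false

/-!
# Cluster T / S35, WP N2: KRONECKER for norms, formal form  (statement: helper36)

`A` a valuation subring of `K` with residue field `k` of characteristic `ℓ`, `ζ ∈ K` a primitive
`ℓ`-th root of unity.  Let `X`, `P ∈ K((q))` be UNITS of Gauss rings (with respect to any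
fields `F`, `F'` of series) and `n₀ ∈ F₀` with

    `n₀(q^ℓ) = X(q^ℓ) · ∏_{b < ℓ} P(ζ^b q)`

(for `X = x`, `P = w x`: `n₀ = Norm x`, `Bridge/NormProd.lean`).  If `F₀` has the value group
property (`hval`), then `n₀` is a unit of the Gauss ring of `F₀` and

    `res n₀ = res X · Frob_coeff (res P)`.

Proof sketch.  Presentations `X = Y₁ / Y₂`, `P = Z₁ / Z₂` over `A`, all four primitive.
`ζ ∈ Aˣ`.  `W_i := ∏_b scaleL (ζ^b) Z_i` is fixed by `scaleL ζ` (`scaleL_prod_scaleL`), hence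
`W_i = qExpand ℓ V_i` (`exists_qExpand_eq_of_scaleL_eq`) and `red V_i = Frob_coeff (red Z_i)`
(`kronecker_formal`).  By injectivity of `qExpand ℓ`: `n₀ · emb (Y₂ V₂) = emb (Y₁ V₁)`.
`hval` gives `c ≠ 0` and a presentation `c n₀ = U₁ / U₂` in `F₀` with `U₁`, `U₂` primitive; then
`c · emb (Y₁ V₁ U₂) = emb (U₁ Y₂ V₂)` with both series primitive, so `c` is a unit of `A`
(reduce the identity in the two cases `c ∈ A`, `c⁻¹ ∈ A`).  Hence `n₀ = c⁻¹ (c n₀)` lies in the Gauss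
ring of `F₀` and its residue is `red (Y₁ V₁) / red (Y₂ V₂)`.
-/

noncomputable section

namespace Fermat.Agent.BadRed

open ModularCurve Fermat.Agent.GaussInt Fermat.Agent.Kronecker

variable {K : Type*} [Field K] (A : ValuationSubring K)

/-- A root of unity lies in every valuation subring. -/
theorem nr_mem_of_pow_eq_one {ζ : K} {ℓ : ℕ} (hℓ : 0 < ℓ) (h : ζ ^ ℓ = 1) : ζ ∈ A := by
  rcases A.mem_or_inv_mem ζ with h1 | h1
  · exact h1
  · have h2 : ζ * ζ ^ (ℓ - 1) = 1 := by rw [← pow_succ', Nat.sub_add_cancel hℓ, h]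
    have h3 : ζ = (ζ⁻¹) ^ (ℓ - 1) := by
      rw [inv_pow]
      exact eq_inv_of_mul_eq_one_left h2
    rw [h3]
    exact pow_mem h1 _

/-- If `c · emb S = emb T` with `c ∈ A` and `T` primitive, then `c⁻¹ ∈ A`. -/
theorem nr_inv_mem_of_prim {c : K} (hc : c ∈ A) {S T : LaurentSeries A}
    (hT : red A T ≠ 0)
    (h : algebraMap K (LaurentSeries K) c * emb A S = emb A T) : c⁻¹ ∈ A := by
  have h1 : constA A ⟨c, hc⟩ * S = T := by
    apply emb_injective A
    rw [map_mul, emb_constA, h]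
  have h2 : IsLocalRing.residue A ⟨c, hc⟩ ≠ 0 := by
    intro h0
    apply hT
    rw [← h1, map_mul, red_constA, h0, map_zero, zero_mul]
  have h3 : IsUnit (⟨c, hc⟩ : A) := by
    by_contra hnu
    exact h2 ((IsLocalRing.residue_eq_zero_iff _).mpr ((IsLocalRing.mem_maximalIdeal _).mpr hnu))
  obtain ⟨u, hu⟩ := h3
  have h4 : (c : K) * ((u⁻¹ : Aˣ) : A) = 1 := by
    have h5 : ((u : A) * ((u⁻¹ : Aˣ) : A) : A) = 1 := by simp
    have h6 := congrArg (fun a : A => (a : K)) h5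
    simp only [MulMemClass.coe_mul, OneMemClass.coe_one] at h6
    rw [hu] at h6
    exact h6
  have h7 : c⁻¹ = (((u⁻¹ : Aˣ) : A) : K) := (eq_inv_of_mul_eq_one_right h4).symm ▸ rfl
  rw [h7]
  exact ((u⁻¹ : Aˣ) : A).2

/-- If `c · emb S = emb T` with `S`, `T` primitive, then `c` is a unit of `A`. -/
theorem nr_unit_of_prim {c : K} (hc0 : c ≠ 0) {S T : LaurentSeries A}
    (hS : red A S ≠ 0) (hT : red A T ≠ 0)
    (h : algebraMap K (LaurentSeries K) c * emb A S = emb A T) : c ∈ A ∧ c⁻¹ ∈ A := by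
  have h' : algebraMap K (LaurentSeries K) c⁻¹ * emb A T = emb A S := by
    rw [← h, ← mul_assoc, ← map_mul, inv_mul_cancel₀ hc0, map_one, one_mul]
  rcases A.mem_or_inv_mem c with h1 | h1
  · exact ⟨h1, nr_inv_mem_of_prim A h1 hT h⟩
  · have := nr_inv_mem_of_prim A h1 hS h'
    rw [inv_inv] at this
    exact ⟨this, h1⟩

/-- **(N2), formal form.** -/
theorem gaussResFun_norm_formal (ℓ : ℕ) [Fact ℓ.Prime] [CharP (IsLocalRing.ResidueField A) ℓ]
    (F₀ F F' : IntermediateField K (LaurentSeries K))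
    (hval : ∀ z : LaurentSeries K, z ∈ F₀ → z ≠ 0 → ∃ c : K, c ≠ 0 ∧
      algebraMap K (LaurentSeries K) c * z ∈ gaussSub A F₀ ∧
      gaussResFun A F₀ (algebraMap K (LaurentSeries K) c * z) ≠ 0)
    (ζ : Kˣ) (hζ : IsPrimitiveRoot ζ ℓ)
    {X P n₀ : LaurentSeries K}
    (hX : X ∈ gaussSub A F) (hXr : gaussResFun A F X ≠ 0)
    (hP : P ∈ gaussSub A F') (hPr : gaussResFun A F' P ≠ 0)
    (hn₀ : n₀ ∈ F₀)
    (h : qExpand K ℓ n₀ = qExpand K ℓ X * ∏ b ∈ Finset.range ℓ, scaleL (ζ ^ b) P) :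
    n₀ ∈ gaussSub A F₀ ∧
      gaussResFun A F₀ n₀ =
        gaussResFun A F X *
          coeffMap (frobenius (IsLocalRing.ResidueField A) ℓ) (gaussResFun A F' P) := by
  classical
  haveI hℓ : NeZero ℓ := ⟨(Fact.out : ℓ.Prime).ne_zero⟩
  have hℓpos : 0 < ℓ := (Fact.out : ℓ.Prime).pos
  obtain ⟨Y₁, Y₂, hY⟩ := hX
  obtain ⟨Z₁, Z₂, hZ⟩ := hP
  have hY₁ : red A Y₁ ≠ 0 := fun h0 => hXr ((gaussResFun_eq_zero_iff hY).mpr h0)
  have hZ₁ : red A Z₁ ≠ 0 := fun h0 => hPr ((gaussResFun_eq_zero_iff hZ).mpr h0)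
  -- `ζ` as a unit of `A`
  have hζpow : (ζ : K) ^ ℓ = 1 := by
    rw [← Units.val_pow_eq_pow_val, hζ.pow_eq_one, Units.val_one]
  have hζinvpow : ((ζ⁻¹ : Kˣ) : K) ^ ℓ = 1 := by
    rw [← Units.val_pow_eq_pow_val, inv_pow, hζ.pow_eq_one, inv_one, Units.val_one]
  have hζA : (ζ : K) ∈ A := nr_mem_of_pow_eq_one A hℓpos hζpow
  have hζinvA : ((ζ⁻¹ : Kˣ) : K) ∈ A := nr_mem_of_pow_eq_one A hℓpos hζinvpow
  let ζA : Aˣ := ⟨⟨ζ, hζA⟩, ⟨((ζ⁻¹ : Kˣ) : K), hζinvA⟩,
    Subtype.ext (by simp), Subtype.ext (by simp)⟩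
  have hmap : Units.map (A.subtype : A →* K) ζA = ζ := Units.ext rfl
  have hinj : Function.Injective (Units.map (A.subtype : A →* K)) :=
    Units.map_injective Subtype.val_injective
  have hζAprim : IsPrimitiveRoot ζA ℓ := by
    refine IsPrimitiveRoot.of_map_of_injective (f := Units.map (A.subtype : A →* K)) ?_ hinj
    rw [hmap]
    exact hζ
  -- the products of the conjugates over `A`
  have hembprod : ∀ Z : LaurentSeries A,
      emb A (∏ b ∈ Finset.range ℓ, scaleL (ζA ^ b) Z) =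
        ∏ b ∈ Finset.range ℓ, scaleL (ζ ^ b) (emb A Z) := by
    intro Z
    rw [map_prod]
    refine Finset.prod_congr rfl fun b _ => ?_
    rw [coeffMap_scaleL, map_pow, hmap]
  have hV : ∀ Z : LaurentSeries A, ∃ V : LaurentSeries A,
      qExpand K ℓ (emb A V) = ∏ b ∈ Finset.range ℓ, scaleL (ζ ^ b) (emb A Z) ∧
      red A V = coeffMap (frobenius (IsLocalRing.ResidueField A) ℓ) (red A Z) := by
    intro Z
    obtain ⟨V, hV⟩ := exists_qExpand_eq_of_scaleL_eq ℓ ζA hζAprim _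
      (scaleL_prod_scaleL ℓ ζA hζAprim.pow_eq_one Z)
    refine ⟨V, ?_, ?_⟩
    · rw [← hembprod, ← hV, coeffMap_qExpand]
    · exact kronecker_formal ℓ (IsLocalRing.residue A) ζA hζAprim.pow_eq_one Z V hV
  obtain ⟨V₁, hV₁, hV₁r⟩ := hV Z₁
  obtain ⟨V₂, hV₂, hV₂r⟩ := hV Z₂
  have hfrobinj : Function.Injective
      (coeffMap (frobenius (IsLocalRing.ResidueField A) ℓ)) :=
    coeffMap_injective_of_injective _ (frobenius (IsLocalRing.ResidueField A) ℓ).injective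
  have hV₁0 : red A V₁ ≠ 0 := by
    rw [hV₁r]
    exact fun h0 => hZ₁ (hfrobinj (by rw [h0, map_zero]))
  have hV₂0 : red A V₂ ≠ 0 := by
    rw [hV₂r]
    exact fun h0 => hZ.prim (hfrobinj (by rw [h0, map_zero]))
  -- the product identity for `P`
  have hprodP : (∏ b ∈ Finset.range ℓ, scaleL (ζ ^ b) P) * qExpand K ℓ (emb A V₂) =
      qExpand K ℓ (emb A V₁) := by
    rw [hV₁, hV₂, ← Finset.prod_mul_distrib]
    refine Finset.prod_congr rfl fun b _ => ?_
    rw [← map_mul, hZ.eq]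
  -- the formal presentation of `n₀`
  have hkey : n₀ * emb A (Y₂ * V₂) = emb A (Y₁ * V₁) := by
    apply qExpand_injective (R := K) ℓ
    rw [map_mul, map_mul, map_mul, map_mul, map_mul, h, ← hY.eq, ← hprodP, map_mul]
    ring
  have hN₁ : red A (Y₁ * V₁) ≠ 0 := by
    rw [map_mul]
    exact mul_ne_zero hY₁ hV₁0
  have hN₂ : red A (Y₂ * V₂) ≠ 0 := by
    rw [map_mul]
    exact mul_ne_zero hY.prim hV₂0
  have hn₀0 : n₀ ≠ 0 := by
    rintro rfl
    rw [zero_mul] at hkey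
    have : Y₁ * V₁ = 0 := emb_injective A (by rw [← hkey, map_zero])
    exact hN₁ (by rw [this, map_zero])
  -- the value group property
  obtain ⟨c, hc0, hcmem, hcres⟩ := hval n₀ hn₀ hn₀0
  obtain ⟨U₁, U₂, hU⟩ := hcmem
  have hU₁ : red A U₁ ≠ 0 := fun h0 => hcres ((gaussResFun_eq_zero_iff hU).mpr h0)
  have hcid : algebraMap K (LaurentSeries K) c * emb A (Y₁ * V₁ * U₂) =
      emb A (U₁ * (Y₂ * V₂)) := by
    rw [map_mul (emb A) (Y₁ * V₁), map_mul (emb A) U₁, ← hkey, ← hU.eq]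
    ring
  obtain ⟨hcA, hcinvA⟩ := nr_unit_of_prim A hc0
    (by rw [map_mul]; exact mul_ne_zero hN₁ hU.prim)
    (by rw [map_mul]; exact mul_ne_zero hU₁ hN₂) hcid
  have hmem : n₀ ∈ gaussSub A F₀ := by
    have h1 : n₀ = algebraMap K (LaurentSeries K) c⁻¹ *
        (algebraMap K (LaurentSeries K) c * n₀) := by
      rw [← mul_assoc, ← map_mul, inv_mul_cancel₀ hc0, map_one, one_mul]
    rw [h1]
    exact mul_mem (algebraMap_mem_gaussSub hcinvA) ⟨U₁, U₂, hU⟩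
  refine ⟨hmem, ?_⟩
  obtain ⟨T₁, T₂, hT⟩ := hmem
  have hTN : T₁ * (Y₂ * V₂) = T₂ * (Y₁ * V₁) := by
    apply emb_injective A
    rw [map_mul, map_mul (emb A) T₂, ← hT.eq, ← hkey]
    ring
  have hTNr : red A T₁ * red A (Y₂ * V₂) = red A T₂ * red A (Y₁ * V₁) := by
    rw [← map_mul, ← map_mul, hTN]
  rw [gaussResFun_eq hT, gaussResFun_eq hY, gaussResFun_eq hZ, map_div₀, ← hV₁r, ← hV₂r,
    div_mul_div_comm, ← map_mul, ← map_mul, div_eq_div_iff hT.prim hN₂, hTNr, mul_comm]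

end Fermat.Agent.BadRed
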